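import Fermat.Prelude.Def_GroupCohomology_ContinuousUnramified
import Fermat.Agent.CFT.Local.Global
import Fermat.Agent.CFT.Local.ResidueCard

/-!
# Fields unramified outside a finite set of primes

`InertiaFixes q F`: every inertia group over `q` fixes `F`.  For normal `L` this is the triviality
of the inertia of `localField q L`, and then the norms on the completion are powers of `q`.
-/

set_option autoImplicit false
set_option linter.style.haveILetI false

noncomputable section

namespace Fermat.Agent.CFT.PT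

open ExtCitation Fermat.Agent.Arith IntermediateField Fermat.Agent.CFT.Local
open scoped Pointwise

local instance factPrimeBasic (q : Nat.Primes) : Fact (q : ℕ).Prime := ⟨q.2⟩

/-- Every inertia group over `q` fixes `F`. -/
def InertiaFixes (q : ℕ) (F : IntermediateField ℚ QBar) : Prop :=
  ∀ A : ValuationSubring QBar, A.LiesOverPrime q → A.inertiaSubgroupIn ℚ ≤ F.fixingSubgroup

theorem inertiaFixes_of_ur {S : Finset Nat.Primes} {F : IntermediateField ℚ QBar}
    (hF : F.IsUnramifiedOutside S) {q : Nat.Primes} (hq : q ∉ S) : InertiaFixes q F :=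
  hF.2 q hq

theorem InertiaFixes.sup {q : ℕ} {F F' : IntermediateField ℚ QBar} (h : InertiaFixes q F)
    (h' : InertiaFixes q F') : InertiaFixes q (F ⊔ F') := fun A hA g hg => by
  rw [IntermediateField.fixingSubgroup_sup]
  exact ⟨h A hA hg, h' A hA hg⟩

theorem inertiaFixes_adjoin {q : ℕ} {T : Set QBar}
    (h : ∀ y ∈ T, ∀ A : ValuationSubring QBar, A.LiesOverPrime q →
      ∀ g ∈ A.inertiaSubgroupIn ℚ, g y = y) :
    InertiaFixes q (IntermediateField.adjoin ℚ T) := fun A hA g hg => by
  rw [IntermediateField.mem_fixingSubgroup_iff]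
  exact (forall_mem_adjoin_smul_eq_self_iff ℚ g).mpr fun y hy => h y hy A hA g hg

theorem normal_normalClosure (F : IntermediateField ℚ QBar) :
    Normal ℚ (IntermediateField.normalClosure ℚ F QBar) :=
  @normalClosure.normal ℚ F QBar _ _ _ _ _ IsGalois.to_normal

theorem InertiaFixes.normalClosure {q : ℕ} {F : IntermediateField ℚ QBar} (h : InertiaFixes q F) :
    InertiaFixes q (IntermediateField.normalClosure ℚ F QBar) := fun A hA g hg => by
  have hle : IntermediateField.normalClosure ℚ F QBar ≤
      IntermediateField.fixedField (Subgroup.zpowers g) := by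
    refine le_trans (IntermediateField.normalClosure_def'' F).le (iSup_le fun f => ?_)
    rintro _ ⟨x, hx, rfl⟩
    have h1 : f⁻¹ * g * f ∈ (f⁻¹ • A).inertiaSubgroupIn ℚ := by
      have := (mem_inertia_smul_iff (g := f⁻¹) (σ := g) (A := A)).mpr hg
      rwa [inv_inv] at this
    have h2 := (IntermediateField.mem_fixingSubgroup_iff _ _).mp
      (h (f⁻¹ • A) (liesOverPrime_smul_iff.mpr hA) h1) x hx
    have h3 : g (f x) = f x := by
      have := congrArg f h2
      rw [AlgEquiv.mul_apply, AlgEquiv.mul_apply] at this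
      exact (f.apply_symm_apply (g (f x))).symm.trans this
    rw [IntermediateField.mem_fixedField_iff]
    exact fun s hs => (Subgroup.zpowers_le.mpr
      (show g ∈ MulAction.stabilizer GQ (f x) from h3) : _ ≤ _) hs
  exact (IntermediateField.le_iff_le _ _).mp hle (Subgroup.mem_zpowers g)

theorem isUnramifiedOutside_normalClosure {S : Finset Nat.Primes}
    {F : IntermediateField ℚ QBar} (hF : F.IsUnramifiedOutside S) :
    (IntermediateField.normalClosure ℚ F QBar).IsUnramifiedOutside S := by
  haveI := hF.1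
  exact ⟨inferInstance, fun q hq => InertiaFixes.normalClosure (inertiaFixes_of_ur hF hq)⟩

/-- A field unramified outside `S` lies in a normal one. -/
theorem exists_normal_ur_ge {S : Finset Nat.Primes} {F : IntermediateField ℚ QBar}
    (hF : F.IsUnramifiedOutside S) :
    ∃ L : IntermediateField ℚ QBar, FiniteDimensional ℚ L ∧ Normal ℚ L ∧
      L.IsUnramifiedOutside S ∧ F ≤ L := by
  haveI := hF.1
  exact ⟨_, (isUnramifiedOutside_normalClosure hF).1, normal_normalClosure F,
    isUnramifiedOutside_normalClosure hF, F.le_normalClosure⟩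

/-- Finitely many fields unramified outside `S` lie in a normal one. -/
theorem exists_common_fields {S : Finset Nat.Primes} {K : IntermediateField ℚ QBar}
    (hK : K.IsUnramifiedOutside S) {κ : Type*} [Fintype κ] (F : κ → IntermediateField ℚ QBar)
    (hF : ∀ k, (F k).IsUnramifiedOutside S) :
    ∃ L : IntermediateField ℚ QBar, FiniteDimensional ℚ L ∧ Normal ℚ L ∧
      L.IsUnramifiedOutside S ∧ K ≤ L ∧ ∀ k, F k ≤ L := by
  have hsup : (Finset.univ.sup F).IsUnramifiedOutside S :=
    Finset.sup_induction (p := fun E : IntermediateField ℚ QBar => E.IsUnramifiedOutside S)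
      (hK.of_le bot_le) (fun _ a _ b => a.sup b) fun k _ => hF k
  obtain ⟨L, h1, h2, h3, h4⟩ := exists_normal_ur_ge (hK.sup hsup)
  exact ⟨L, h1, h2, h3, le_sup_left.trans h4,
    fun k => ((Finset.le_sup (Finset.mem_univ k)).trans le_sup_right).trans h4⟩

variable (L : IntermediateField ℚ QBar) [FiniteDimensional ℚ L] [Normal ℚ L]

omit [FiniteDimensional ℚ L] in
theorem inertiaFixes_iff_padicPlace (q : ℕ) [Fact q.Prime] :
    InertiaFixes q L ↔ ∀ g ∈ (padicPlace q).inertiaSubgroupIn ℚ, ∀ x : L,
      g (x : QBar) = (x : QBar) := by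
  refine ⟨fun h g hg x => (IntermediateField.mem_fixingSubgroup_iff _ _).mp
    (h _ (padicPlace_liesOverPrime q) hg) x x.2, fun h A hA s hs => ?_⟩
  haveI : IsGalois ℚ L := ⟨⟩
  haveI : L.fixingSubgroup.Normal := (InfiniteGalois.normal_iff_isGalois L).mpr ‹_›
  obtain ⟨g, hg⟩ := exists_smul_eq (padicPlace_liesOverPrime q) hA Fact.out
  have h1 : g⁻¹ * s * g ∈ (padicPlace q).inertiaSubgroupIn ℚ := by
    have := (mem_inertia_smul_iff (g := g⁻¹) (σ := s) (A := A)).mpr hs
    rw [inv_inv] at this
    rwa [← hg, inv_smul_smul] at this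
  have h2 : g⁻¹ * s * g ∈ L.fixingSubgroup := by
    rw [IntermediateField.mem_fixingSubgroup_iff]
    exact fun x hx => h _ h1 ⟨x, hx⟩
  have h3 := Subgroup.Normal.conj_mem ‹_› _ h2 g
  rwa [show g * (g⁻¹ * s * g) * g⁻¹ = s by group] at h3

theorem inertia_eq_bot_iff_inertiaFixes (q : ℕ) [Fact q.Prime] :
    inertia (localField q L) = ⊥ ↔ InertiaFixes q L := by
  rw [inertia_eq_bot_iff, inertiaFixes_iff_padicPlace]

/-- A normal field is unramified outside `S` iff its completions off `S` are unramified. -/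
theorem isUnramifiedOutside_iff (S : Finset Nat.Primes) :
    L.IsUnramifiedOutside S ↔
      ∀ q : Nat.Primes, q ∉ S → inertia (localField (q : ℕ) L) = ⊥ :=
  ⟨fun h _ hq => (inertia_eq_bot_iff_inertiaFixes L _).mpr (inertiaFixes_of_ur h hq),
    fun h => ⟨inferInstance, fun q hq => (inertia_eq_bot_iff_inertiaFixes L _).mp (h q hq)⟩⟩

/-- In an unramified completion every norm is a power of `q`. -/
theorem exists_norm_eq_zpow {q : ℕ} [Fact q.Prime] (h : inertia (localField q L) = ⊥)
    (y : (localField q L)ˣ) : ∃ n : ℤ, ‖(y : localField q L)‖ = (q : ℝ) ^ n := by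
  haveI : IsGalois ℚ_[q] (localField q L) := ⟨⟩
  obtain ⟨π, hπ, hπ1⟩ := exists_fixed_ord_eq_one (E := localField q L) ⊤ (by rw [h, inf_bot_eq])
  obtain ⟨a, ha⟩ := (IsGalois.mem_range_algebraMap_iff_fixed (F := ℚ_[q])
    (π : localField q L)).mpr fun σ => congrArg Units.val (hπ ⟨σ, Subgroup.mem_top σ⟩)
  have ha0 : a ≠ 0 := fun h0 => π.ne_zero (by rw [← ha, h0, map_zero])
  refine ⟨-a.valuation * ordZ (localField q L) y, ?_⟩
  have hn : ordZ (localField q L) y = ordZ (localField q L) (π ^ ordZ (localField q L) y) := by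
    rw [ordZ_zpow, show ordZ (localField q L) π = 1 by rw [ordZ, hπ1, toAdd_ofAdd], mul_one]
  rw [(norm_eq_norm_iff _ y _).mpr hn, Units.val_zpow_eq_zpow_val, norm_zpow, ← ha,
    norm_algebraMap', Padic.norm_eq_zpow_neg_valuation ha0, ← zpow_mul]

theorem exists_norm_eq_zpow_of_ur {S : Finset Nat.Primes} (hL : L.IsUnramifiedOutside S)
    {q : Nat.Primes} (hq : q ∉ S) (y : (localField (q : ℕ) L)ˣ) :
    ∃ n : ℤ, ‖(y : localField (q : ℕ) L)‖ = (q : ℝ) ^ n :=
  exists_norm_eq_zpow L ((isUnramifiedOutside_iff L S).mp hL q hq) y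

end Fermat.Agent.CFT.PT
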