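import Fermat.Agent.Arith.RootsOfUnity
import Fermat.Agent.CFT.Idele.Decomp
import Fermat.Agent.CFT.Idele.Incl
import Fermat.Agent.CFT.PT.Arith.Basic

/-!
# Enlarging the Frobenius at an unramified prime

Adjoining a root of unity of order `q ^ N - 1` makes the order of Frobenius divisible by `N`.
-/

set_option autoImplicit false
set_option linter.style.haveILetI false

noncomputable section

namespace Fermat.Agent.CFT.PT

open ExtCitation Fermat.Agent.Arith IntermediateField Fermat.Agent.CFT.Local Fermat.Agent.CFT.Idele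
open scoped Pointwise

/-- `q` has order `N` modulo `q ^ N - 1`. -/
theorem dvd_of_pow_sub_one_dvd {q N j : ℕ} (hq : 1 < q) (h : q ^ N - 1 ∣ q ^ j - 1) : N ∣ j := by
  have h1 := Nat.gcd_eq_left h
  rw [Nat.pow_sub_one_gcd_pow_sub_one] at h1
  have h2 : q ^ Nat.gcd N j = q ^ N := by
    have := Nat.one_le_pow (Nat.gcd N j) q (by omega)
    have := Nat.one_le_pow N q (by omega)
    omega
  exact Nat.gcd_eq_left_iff_dvd.mp (Nat.pow_right_injective hq h2)

/-- An unramified level on which Frobenius generates the decomposition group and has order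
divisible by `p` times its order on `L`. -/
theorem exists_frobenius_enlargement {p : ℕ} [Fact p.Prime] {L : IntermediateField ℚ QBar}
    [FiniteDimensional ℚ L] [Normal ℚ L] (q : ℕ) [Fact q.Prime]
    (hL : inertia (localField q L) = ⊥) :
    ∃ (L' : IntermediateField ℚ QBar) (_ : FiniteDimensional ℚ L') (_ : Normal ℚ L') (h : L ≤ L')
      (δ : L' ≃ₐ[ℚ] L'), inertia (localField q L') = ⊥ ∧
        (toGlobal q L').range = Subgroup.zpowers δ ∧ p * orderOf (resTo h δ) ∣ orderOf δ := by
  obtain ⟨σ, hσ⟩ := exists_isFrobeniusAt (padicPlace_liesOverPrime q) (Fact.out : q.Prime)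
  set N := p * orderOf (res L σ) with hN
  have hNpos : 0 < N := Nat.mul_pos (Fact.out : p.Prime).pos (orderOf_pos _)
  have hq1 : 1 < q := (Fact.out : q.Prime).one_lt
  set M := q ^ N - 1 with hM
  have hM0 : M ≠ 0 := by
    have := Nat.one_lt_pow hNpos.ne' hq1
    omega
  haveI : NeZero M := ⟨hM0⟩
  haveI : NeZero (M : QBar) := ⟨Nat.cast_ne_zero.mpr hM0⟩
  have hqM : ¬ q ∣ M := fun hdvd => by
    have h1 : q ∣ q ^ N - M := Nat.dvd_sub (dvd_pow_self q hNpos.ne') hdvd
    rw [show q ^ N - M = 1 by have := Nat.one_le_pow N q (by omega); omega] at h1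
    exact absurd (Nat.le_of_dvd one_pos h1) (by omega)
  obtain ⟨ζ, hζ⟩ := HasEnoughRootsOfUnity.exists_primitiveRoot QBar M
  set F := L ⊔ IntermediateField.adjoin ℚ ({ζ} : Set QBar)
  haveI : FiniteDimensional ℚ (IntermediateField.adjoin ℚ ({ζ} : Set QBar)) :=
    IntermediateField.adjoin.finiteDimensional (Algebra.IsIntegral.isIntegral ζ)
  haveI : FiniteDimensional ℚ F := IntermediateField.finiteDimensional_sup _ _
  set L' := IntermediateField.normalClosure ℚ F QBar
  haveI : Normal ℚ L' := normal_normalClosure F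
  have hle : L ≤ L' := le_sup_left.trans F.le_normalClosure
  have hζL : ζ ∈ L' :=
    F.le_normalClosure (le_sup_right (a := L) (IntermediateField.subset_adjoin _ _ rfl))
  have hfix : InertiaFixes q L' :=
    InertiaFixes.normalClosure (InertiaFixes.sup ((inertia_eq_bot_iff_inertiaFixes L q).mp hL)
      (inertiaFixes_adjoin fun y hy A hA g hg => by
        rw [Set.mem_singleton_iff] at hy
        subst hy
        exact inertia_root hA Fact.out hg hζ.pow_eq_one hqM))
  refine ⟨L', inferInstance, inferInstance, hle, res L' σ,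
    (inertia_eq_bot_iff_inertiaFixes L' q).mpr hfix, ?_, ?_⟩
  · obtain ⟨hstab, -⟩ := isFrobeniusAt_iff_forall_mem.mp hσ
    refine le_antisymm ?_ (Subgroup.zpowers_le.mpr ((mem_range_toGlobal_iff q L' _).mpr
      fun x hx => ?_))
    · rintro _ ⟨t, rfl⟩
      obtain ⟨τ, rfl⟩ := AlgEquiv.restrictNormalHom_surjective (K₁ := localField q L')
        (PadicAlgCl q) t
      obtain ⟨i, hi⟩ := exists_pow_restrict_eq L' ((inertiaFixes_iff_padicPlace L' q).mp hfix) hσ τ
      rw [toGlobal_restrict, hi]
      exact pow_mem (Subgroup.mem_zpowers _) i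
    · rw [res_apply]
      exact map_mem_of_mem_decomposition hstab hx
  · rw [resTo_res]
    show N ∣ orderOf (res L' σ)
    set j := orderOf (res L' σ) with hj
    have hpow : ∀ i : ℕ, (σ ^ i) ζ = ζ ^ q ^ i := fun i => by
      induction i with
      | zero => simp
      | succ i ih =>
        rw [pow_succ', AlgEquiv.mul_apply, ih, map_pow,
          frobenius_root (padicPlace_liesOverPrime q) Fact.out hσ hζ.pow_eq_one hqM, ← pow_mul,
          pow_succ']
    have h1 : ζ ^ q ^ j = ζ := by
      rw [← hpow]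
      have h := res_apply L' (σ ^ j) ⟨ζ, hζL⟩
      rw [map_pow, hj, pow_orderOf_eq_one, AlgEquiv.one_apply] at h
      exact h.symm
    refine dvd_of_pow_sub_one_dvd hq1 (hζ.dvd_of_pow_eq_one _ ?_)
    have hqj := Nat.one_le_pow j q (by omega)
    refine mul_left_injective₀ (hζ.ne_zero hM0) ?_
    show ζ ^ (q ^ j - 1) * ζ = 1 * ζ
    rw [← pow_succ, Nat.sub_add_cancel hqj, h1, one_mul]

end Fermat.Agent.CFT.PT
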