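import Fermat.Agent.Arith.RootsOfUnity
import Fermat.Agent.CFT.PT.Arith.Basic

/-!
# A level for a finite module unramified outside `S`
-/

set_option autoImplicit false
set_option linter.style.haveILetI false

noncomputable section

namespace Fermat.Agent.CFT.PT

open ExtCitation Fermat.Agent.Arith IntermediateField Module

/-- The elements acting trivially on a module. -/
def actKer {k : Type} [CommRing k] (M : Rep k GQ) : Subgroup GQ where
  carrier := {g | M.ρ g = 1}
  one_mem' := map_one M.ρ
  mul_mem' {a b} ha hb := by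
    show M.ρ (a * b) = 1
    rw [map_mul, ha, hb, one_mul]
  inv_mem' {a} ha := by
    show M.ρ a⁻¹ = 1
    have h : M.ρ a = 1 := ha
    have := map_mul M.ρ a⁻¹ a
    rwa [inv_mul_cancel, map_one, h, mul_one, eq_comm] at this

theorem mem_actKer {k : Type} [CommRing k] {M : Rep k GQ} {g : GQ} :
    g ∈ actKer M ↔ M.ρ g = 1 := Iff.rfl

/-- A level containing the `p`-th roots of unity and trivialising `M`. -/
theorem exists_level {p : ℕ} [Fact p.Prime] (S : Finset Nat.Primes) (hpS : pPrime p ∈ S)
    (M : Rep (ZMod p) GQ) [FiniteDimensional (ZMod p) M]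
    (hsm : ∀ m : M, ∃ F : IntermediateField ℚ QBar, FiniteDimensional ℚ F ∧
      ∀ s ∈ F.fixingSubgroup, M.ρ s m = m)
    (hMur : ∀ q : Nat.Primes, q ∉ S → ∀ A : ValuationSubring QBar,
      A.LiesOverPrime (q : ℕ) → ∀ g ∈ A.inertiaSubgroupIn ℚ, M.ρ g = 1) :
    ∃ L0 : IntermediateField ℚ QBar, FiniteDimensional ℚ L0 ∧ Normal ℚ L0 ∧
      L0.IsUnramifiedOutside S ∧ (∃ ζ ∈ L0, IsPrimitiveRoot ζ p) ∧
      ∀ g ∈ L0.fixingSubgroup, M.ρ g = 1 := by
  classical
  haveI : Finite M := Module.finite_of_finite (ZMod p)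
  choose F hF hFm using hsm
  haveI : ∀ m : M, FiniteDimensional ℚ (F m) := hF
  have hle : (⨆ m : M, F m).fixingSubgroup ≤ actKer M := fun g hg => by
    refine LinearMap.ext fun m => ?_
    exact hFm m g (IntermediateField.fixingSubgroup_antitone (le_iSup F m) hg)
  have hH : IsOpen (actKer M : Set GQ) :=
    Subgroup.isOpen_mono hle (IntermediateField.fixingSubgroup_isOpen _)
  have hfix : (IntermediateField.fixedField (actKer M)).fixingSubgroup = actKer M :=
    InfiniteGalois.fixingSubgroup_fixedField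
      (⟨actKer M, Subgroup.isClosed_of_isOpen _ hH⟩ : ClosedSubgroup GQ)
  set K := IntermediateField.fixedField (actKer M)
  haveI : FiniteDimensional ℚ K := by
    have h1 : K ≤ ⨆ m : M, F m := by
      intro x hx
      rw [← InfiniteGalois.fixedField_fixingSubgroup (⨆ m : M, F m),
        IntermediateField.mem_fixedField_iff]
      exact fun s hs => (IntermediateField.mem_fixedField_iff _ x).mp hx s (hle hs)
    exact FiniteDimensional.of_injective (IntermediateField.inclusion h1).toLinearMap
      (IntermediateField.inclusion_injective h1)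
  haveI : NeZero p := ⟨(Fact.out : p.Prime).ne_zero⟩
  haveI : NeZero (p : QBar) := ⟨Nat.cast_ne_zero.mpr (Fact.out : p.Prime).ne_zero⟩
  obtain ⟨ζ, hζ⟩ := HasEnoughRootsOfUnity.exists_primitiveRoot QBar p
  haveI : FiniteDimensional ℚ (IntermediateField.adjoin ℚ ({ζ} : Set QBar)) :=
    IntermediateField.adjoin.finiteDimensional (Algebra.IsIntegral.isIntegral ζ)
  have hur : (K ⊔ IntermediateField.adjoin ℚ ({ζ} : Set QBar)).IsUnramifiedOutside S := by
    refine ⟨IntermediateField.finiteDimensional_sup _ _, fun q hq =>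
      InertiaFixes.sup (fun A hA g hg => ?_) (inertiaFixes_adjoin fun y hy A hA g hg => ?_)⟩
    · rw [hfix]
      exact hMur q hq A hA g hg
    · rw [Set.mem_singleton_iff] at hy
      subst hy
      refine inertia_root hA q.2 hg hζ.pow_eq_one fun hdvd => hq ?_
      rwa [show q = pPrime p from Subtype.ext 
        ((Nat.prime_dvd_prime_iff_eq q.2 (Fact.out : p.Prime)).mp hdvd)]
  obtain ⟨L0, h1, h2, h3, h4⟩ := exists_normal_ur_ge hur
  refine ⟨L0, h1, h2, h3, ⟨ζ, h4 (le_sup_right (a := K)
    (IntermediateField.subset_adjoin _ _ rfl)), hζ⟩, fun g hg => ?_⟩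
  rw [← mem_actKer, ← hfix]
  exact IntermediateField.fixingSubgroup_antitone (le_sup_left.trans h4) hg

end Fermat.Agent.CFT.PT
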